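import Mathlib.RingTheory.SimpleModule.Basic
import Mathlib.RepresentationTheory.AlgebraRepresentation.Basic
import Mathlib.LinearAlgebra.Matrix.ToLin
import Mathlib.FieldTheory.IsAlgClosed.Basic

/-!
# An irreducible representation over an algebraically closed field spans the matrices
-/

set_option autoImplicit false

noncomputable section

namespace Fermat.Agent.Deform

variable {k : Type*} [Field k] [IsAlgClosed k] {H : Type*} [Monoid H] {d : ℕ}

/-- Burnside's theorem. -/
theorem span_range_eq_top_of_irreducible (hd : 0 < d) (σ : H →* Matrix (Fin d) (Fin d) k)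
    (hirr : ∀ U : Submodule k (Fin d → k),
      (∀ g, ∀ x ∈ U, (σ g).mulVec x ∈ U) → U = ⊥ ∨ U = ⊤) :
    Submodule.span k (Set.range σ) = ⊤ := by
  let ρ : H →* Module.End k (Fin d → k) :=
    (Matrix.toLinAlgEquiv' (R := k) (n := Fin d)).toMonoidHom.comp σ
  let S : Subalgebra k (Module.End k (Fin d → k)) := Algebra.adjoin k (Set.range ρ)
  have : IsScalarTower k S (Fin d → k) := ⟨fun c s x => rfl⟩
  have hnt : Nontrivial (Submodule S (Fin d → k)) := by
    refine ⟨⊥, ⊤, fun h => ?_⟩
    have h1 : (Pi.single ⟨0, hd⟩ 1 : Fin d → k) ∈ (⊥ : Submodule S (Fin d → k)) := h ▸ trivial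
    rw [Submodule.mem_bot] at h1
    simpa using congrFun h1 ⟨0, hd⟩
  have hso : IsSimpleOrder (Submodule S (Fin d → k)) := ⟨fun N => by
    rcases hirr (N.restrictScalars k) (fun g x hx =>
      N.smul_mem ⟨ρ g, Algebra.subset_adjoin ⟨g, rfl⟩⟩ hx) with h | h
    · exact Or.inl ((Submodule.restrictScalars_eq_bot_iff k S (Fin d → k)).1 h)
    · exact Or.inr ((Submodule.restrictScalars_eq_top_iff k S (Fin d → k)).1 h)⟩
  have : IsSimpleModule S (Fin d → k) := { toIsSimpleOrder := hso }
  have hS : S = ⊤ := by
    rw [eq_top_iff]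
    rintro f -
    have hcomm : ∀ (g : Module.End S (Fin d → k)) (v : Fin d → k), f (g v) = g (f v) := by
      intro g v
      obtain ⟨c, rfl⟩ := (IsSimpleModule.algebraMap_end_bijective_of_isAlgClosed (A := S) (V := Fin d → k) k).2 g
      exact map_smul f c v
    let F : Module.End (Module.End S (Fin d → k)) (Fin d → k) :=
      { toFun := f, map_add' := map_add f, map_smul' := hcomm }
    classical
    obtain ⟨r, hr⟩ := jacobson_density (R := S) (M := Fin d → k) F
      ((Finset.univ : Finset (Fin d)).image fun i => (Pi.single i 1 : Fin d → k))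
    have e : (r : Module.End k (Fin d → k)) = f :=
      (Pi.basisFun k (Fin d)).ext fun i => by
        rw [Pi.basisFun_apply]
        exact (hr _ (Finset.mem_image_of_mem _ (Finset.mem_univ i))).symm
    exact e ▸ r.2
  have hspan : Subalgebra.toSubmodule S = Submodule.span k (Set.range ρ) := by
    rw [Algebra.adjoin_eq_span]
    refine le_antisymm (Submodule.span_mono ?_) (Submodule.span_mono Submonoid.subset_closure)
    intro x hx
    induction hx using Submonoid.closure_induction with
    | mem x hx => exact hx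
    | one => exact ⟨1, map_one ρ⟩
    | mul x y _ _ hx hy =>
      obtain ⟨a, rfl⟩ := hx
      obtain ⟨b, rfl⟩ := hy
      exact ⟨a * b, map_mul ρ a b⟩
  rw [hS, Algebra.top_toSubmodule] at hspan
  rw [eq_top_iff]
  rintro X -
  have hX : Matrix.toLinAlgEquiv' X ∈ Submodule.span k (Set.range ρ) := hspan ▸ trivial
  rw [show Set.range ρ = (Matrix.toLinAlgEquiv' (R := k) (n := Fin d)).toLinearMap '' Set.range σ by
    rw [← Set.range_comp]; rfl, ← Submodule.map_span] at hX
  obtain ⟨Y, hY, e⟩ := hX
  rwa [(Matrix.toLinAlgEquiv' (R := k) (n := Fin d)).injective e] at hY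

end Fermat.Agent.Deform
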