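import Fermat.Agent.Deform.Matrix
import Fermat.Agent.Deform.BurnsideSpan

/-!
# Burnside's theorem in dimension two

An absolutely irreducible two-dimensional representation spans the matrix algebra.
-/

set_option autoImplicit false

noncomputable section

namespace Fermat.Agent.Deform

open Matrix Module

variable {K : Type} [Field K] {H : Type} [Monoid H]

/-- A family of matrices has a common eigenvector. -/
def HasCommonEigvec (M : H →* M2 K) : Prop :=
  ∃ v : Fin 2 → K, v ≠ 0 ∧ ∀ h, ∃ c : K, (M h).mulVec v = c • v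

omit [Monoid H] in
theorem eq_top_of_invariant {f : H → Module.End K (Fin 2 → K)} (W : Submodule K (Fin 2 → K))
    (hW : W ≠ ⊥) (hinv : ∀ h, ∀ w ∈ W, f h w ∈ W)
    (hno : ¬ ∃ v : Fin 2 → K, v ≠ 0 ∧ ∀ h, ∃ c : K, f h v = c • v) : W = ⊤ := by
  by_contra hne
  obtain ⟨v, hv, hv0⟩ := Submodule.exists_mem_ne_zero_of_ne_bot hW
  have h2 : finrank K W < 2 := by
    simpa [Module.finrank_fintype_fun_eq_card] using Submodule.finrank_lt hne
  have hle : K ∙ v ≤ W := (Submodule.span_singleton_le_iff_mem v W).mpr hv
  have hspan : K ∙ v = W :=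
    Submodule.eq_of_le_of_finrank_le hle (by rw [finrank_span_singleton hv0]; omega)
  refine hno ⟨v, hv0, fun h => ?_⟩
  have := hinv h v hv
  rw [← hspan, Submodule.mem_span_singleton] at this
  obtain ⟨c, hc⟩ := this
  exact ⟨c, hc.symm⟩

/-- Burnside's theorem in dimension two. -/
theorem span_eq_top_of_not_hasCommonEigvec [IsAlgClosed K] (M : H →* M2 K)
    (hM : ¬ HasCommonEigvec M) : Submodule.span K (Set.range M) = ⊤ :=
  span_range_eq_top_of_irreducible two_pos M fun U hU =>
    or_iff_not_imp_left.mpr fun h => eq_top_of_invariant (f := fun g => Matrix.toLin' (M g)) U h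
      (fun g w hw => by rw [Matrix.toLin'_apply]; exact hU g w hw)
      (fun ⟨v, hv, hev⟩ => hM ⟨v, hv, fun g => by simpa [Matrix.toLin'_apply] using hev g⟩)

/-- An absolutely irreducible representation spans the matrix algebra. -/
theorem span_matrix_eq_top {k : Type} [Field k] (ρbar : ResidualGaloisRep k)
    (habs : ρbar.IsAbsolutelyIrreducible) (b : Basis (Fin 2) k ρbar.V) :
    Submodule.span k (Set.range fun σ => LinearMap.toMatrixAlgEquiv b (ρbar.ρ σ)) = ⊤ := by
  let L := AlgebraicClosure k
  let r : Gal →* M2 k := (LinearMap.toMatrixAlgEquiv b).toMonoidHom.comp ρbar.ρ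
  let bL : Basis (Fin 2) L (ρbar.baseChange L).V := b.baseChange L
  have hmat : ∀ σ, LinearMap.toMatrix bL bL ((ρbar.baseChange L).ρ σ) = mapM (algebraMap k L) r σ :=
    fun σ => by
      ext i j
      show LinearMap.toMatrix bL bL ((ρbar.ρ σ).baseChange L) i j = _
      rw [LinearMap.toMatrix_apply, Basis.baseChange_apply, LinearMap.baseChange_tmul,
        Basis.baseChange_repr_tmul, mapM_apply, Algebra.smul_def, mul_one]
      exact congrArg _ (LinearMap.toMatrixAlgEquiv_apply b _ i j).symm
  have hspan := span_eq_top_of_not_hasCommonEigvec (mapM (algebraMap k L) r) <| by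
    rintro ⟨v, hv, hev⟩
    let w : (ρbar.baseChange L).V := bL.equivFun.symm v
    have hw0 : w ≠ 0 := fun h => hv (bL.equivFun.symm.map_eq_zero_iff.mp h)
    have hw : (bL.repr w : Fin 2 → L) = v := bL.equivFun.apply_symm_apply v
    rcases habs (L ∙ w) fun σ x hx => by
      obtain ⟨a, rfl⟩ := Submodule.mem_span_singleton.mp hx
      obtain ⟨c, hc⟩ := hev σ
      refine Submodule.mem_span_singleton.mpr ⟨a * c, bL.equivFun.injective ?_⟩
      have h1 := LinearMap.toMatrix_mulVec_repr bL bL ((ρbar.baseChange L).ρ σ) w
      rw [hmat, hw, hc] at h1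
      simp only [map_smul, Basis.equivFun_apply, hw, mul_smul, h1]; rfl with h | h
    · exact hw0 (Submodule.span_singleton_eq_bot.mp h)
    · have := finrank_span_singleton (K := L) hw0
      rw [h, finrank_top, (ρbar.baseChange L).finrank_eq] at this
      omega
  set W := Submodule.span k (Set.range fun σ => LinearMap.toMatrixAlgEquiv b (ρbar.ρ σ))
  let e := Module.finBasis k W
  let φ := ((Algebra.ofId k L).mapMatrix (m := Fin 2)).toLinearMap
  have hle : Submodule.span L (Set.range (mapM (algebraMap k L) r)) ≤
      Submodule.span L (Set.range fun i => φ (e i)) := by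
    rw [Submodule.span_le]
    rintro _ ⟨σ, rfl⟩
    show (φ.comp W.subtype) ⟨r σ, Submodule.subset_span ⟨σ, rfl⟩⟩ ∈ _
    rw [← e.sum_repr ⟨r σ, _⟩, map_sum]
    refine sum_mem fun i _ => ?_
    rw [map_smul, ← IsScalarTower.algebraMap_smul L]
    exact Submodule.smul_mem _ _ (Submodule.subset_span ⟨i, rfl⟩)
  rw [hspan] at hle
  refine Submodule.eq_top_of_finrank_eq (le_antisymm (Submodule.finrank_le W) ?_)
  have := (Submodule.finrank_mono hle).trans (finrank_range_le_card _)
  simpa [Module.finrank_matrix] using this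

/-! ### Spanning sets of matrices over rings -/

/-- A matrix orthogonal to a spanning set for the trace form has entries in the ideal. -/
theorem mem_of_trace_mul {K ι : Type} [CommRing K] {f : ι → M2 K}
    (hf : Submodule.span K (Set.range f) = ⊤) (I : Ideal K) (M : M2 K)
    (h : ∀ g, (M * f g).trace ∈ I) (i j : Fin 2) : M i j ∈ I := by
  have h1 : ∀ Y : M2 K, (M * Y).trace ∈ I := fun Y => by
    have hY : Y ∈ Submodule.span K (Set.range f) := hf ▸ Submodule.mem_top
    induction hY using Submodule.span_induction with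
    | mem Y hY => obtain ⟨g, rfl⟩ := hY; exact h g
    | zero => rw [mul_zero, Matrix.trace_zero]; exact I.zero_mem
    | add a b _ _ ha hb => rw [mul_add, Matrix.trace_add]; exact I.add_mem ha hb
    | smul c a _ ha => rw [mul_smul_comm, Matrix.trace_smul]; exact I.mul_mem_left c ha
  have h2 := h1 (Matrix.single j i 1)
  rw [Matrix.trace_fin_two] at h2
  fin_cases i <;> fin_cases j <;>
    simpa [Matrix.mul_apply, Fin.sum_univ_two, Matrix.single] using h2

/-- The image of a spanning set under a ring map spans. -/
theorem span_map_eq_top {K L : Type} {ι : Type*} [CommRing K] [CommRing L] (φ : K →+* L) {f : ι → M2 K}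
    (hf : Submodule.span K (Set.range f) = ⊤) :
    Submodule.span L (Set.range fun g => (f g).map φ) = ⊤ := by
  have h1 : ∀ Y : M2 K, φ.mapMatrix Y ∈ Submodule.span L (Set.range fun g => (f g).map φ) :=
    fun Y => by
    have hY : Y ∈ Submodule.span K (Set.range f) := hf ▸ Submodule.mem_top
    induction hY using Submodule.span_induction with
    | mem Y hY => obtain ⟨g, rfl⟩ := hY; exact Submodule.subset_span ⟨g, rfl⟩
    | zero => rw [map_zero]; exact zero_mem _
    | add a b _ _ ha hb => rw [map_add]; exact add_mem ha hb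
    | smul c a _ ha =>
      rw [show φ.mapMatrix (c • a) = φ c • φ.mapMatrix a from
        Matrix.ext fun i j => by simp [RingHom.mapMatrix_apply]]
      exact Submodule.smul_mem _ _ ha
  refine eq_top_iff.2 fun X _ => ?_
  rw [Matrix.matrix_eq_sum_single X]
  refine Submodule.sum_mem _ fun i _ => Submodule.sum_mem _ fun j _ => ?_
  rw [show Matrix.single i j (X i j) = X i j • φ.mapMatrix (Matrix.single i j (1 : K)) by
    rw [RingHom.mapMatrix_apply, Matrix.map_single, map_one, Matrix.smul_single, smul_eq_mul,
      mul_one]]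
  exact Submodule.smul_mem _ _ (h1 _)

end Fermat.Agent.Deform
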