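import Fermat.Agent.Deform.Basic
import Fermat.Agent.Deform.Burnside

/-!
# Residual representations as matrices

Lifts of a residual representation in a basis, and the rigidifying data of an absolutely
irreducible one.
-/

set_option autoImplicit false
set_option linter.style.haveILetI false

noncomputable section

namespace Fermat.Agent.Deform

open IsLocalRing Module
open scoped TensorProduct

section Field

variable {k : Type} [Field k]

/-- Matrices of a residual representation in a basis. -/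
def matRes (ρ : ResidualGaloisRep k) (b : Basis (Fin 2) k ρ.V) : Gal →* M2 k :=
  (LinearMap.toMatrixAlgEquiv b).toMonoidHom.comp ρ.ρ

theorem matRes_apply (ρ : ResidualGaloisRep k) (b : Basis (Fin 2) k ρ.V) (σ : Gal) (i j : Fin 2) :
    matRes ρ b σ i j = b.repr (ρ.ρ σ (b j)) i :=
  LinearMap.toMatrixAlgEquiv_apply b (ρ.ρ σ) i j

theorem matRes_eq_of_equiv {ρ ρ' : ResidualGaloisRep k} (e : ResidualGaloisRep.Equiv ρ ρ')
    (b : Basis (Fin 2) k ρ.V) : matRes ρ' (b.map e.toLinearEquiv) = matRes ρ b := by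
  ext σ i j
  rw [matRes_apply, matRes_apply, Basis.map_apply, ← e.map_apply]
  simp [Basis.map_repr]

theorem isEquiv_of_matRes_eq {ρ ρ' : ResidualGaloisRep k} (b : Basis (Fin 2) k ρ.V)
    (b' : Basis (Fin 2) k ρ'.V) (h : matRes ρ b = matRes ρ' b') : ρ.IsEquiv ρ' := by
  refine ⟨⟨b.equiv b' (Equiv.refl _), fun σ x => ?_⟩⟩
  show ((b.equiv b' (Equiv.refl _) : ρ.V →ₗ[k] ρ'.V).comp (ρ.ρ σ)) x =
    ((ρ'.ρ σ).comp (b.equiv b' (Equiv.refl _) : ρ.V →ₗ[k] ρ'.V)) x
  congr 1
  refine b.ext fun j => ?_
  apply b'.repr.injective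
  ext i
  have h1 := congr_fun (congr_fun (DFunLike.congr_fun h σ) i) j
  rw [matRes_apply, matRes_apply] at h1
  have hb : ∀ y, b'.repr (b.equiv b' (Equiv.refl _) y) i = b.repr y i := by
    intro y
    simp [Basis.equiv]
  simp only [LinearMap.comp_apply, LinearEquiv.coe_coe, Basis.equiv_apply, Equiv.refl_apply, hb]
  exact h1

theorem matRes_baseChangeAlong {k' : Type} [Field k'] (φ : k →+* k') (ρ : ResidualGaloisRep k)
    (b : Basis (Fin 2) k ρ.V) :
    letI := φ.toAlgebra
    matRes (ρ.baseChangeAlong φ) (b.baseChange k') = mapM φ (matRes ρ b) := by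
  letI := φ.toAlgebra
  ext σ i j
  show LinearMap.toMatrixAlgEquiv (b.baseChange k') ((ρ.ρ σ).baseChange k') i j = _
  rw [LinearMap.toMatrixAlgEquiv_apply, Basis.baseChange_apply, LinearMap.baseChange_tmul,
    Basis.baseChange_repr_tmul, mapM_apply, matRes_apply, Algebra.smul_def, mul_one]
  rfl

end Field

section Adic

variable {A : Type} [CommRing A] [IsLocalRing A]

theorem matRes_residual (ρ : GaloisRepAdic A) (b : Basis (Fin 2) A ρ.V) :
    matRes ρ.residual (b.baseChange (ResidueField A)) = mapM (residue A) (matOf ρ b) := by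
  ext σ i j
  show LinearMap.toMatrixAlgEquiv (b.baseChange (ResidueField A))
    ((ρ.ρ σ).baseChange (ResidueField A)) i j = _
  rw [LinearMap.toMatrixAlgEquiv_apply, Basis.baseChange_apply, LinearMap.baseChange_tmul,
    Basis.baseChange_repr_tmul, mapM_apply, matOf_apply, Algebra.smul_def, mul_one]
  rfl

theorem exists_basis_lift (ρ : GaloisRepAdic A) (b' : Basis (Fin 2) (ResidueField A) ρ.residual.V) :
    ∃ b : Basis (Fin 2) A ρ.V, b.baseChange (ResidueField A) = b' := by
  choose v hv using fun i =>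
    TensorProduct.mk_surjective A ρ.V (ResidueField A) residue_surjective (b' i)
  have := Module.finitePresentation_of_projective A ρ.V
  have e : TensorProduct.mk A (ResidueField A) ρ.V 1 ∘ v = b' := funext hv
  obtain ⟨b, hb⟩ := Module.exists_basis_of_basis_baseChange v (e ▸ b'.linearIndependent)
    (e ▸ b'.span_eq) (Module.Flat.rTensor_preserves_injective_linearMap _ Subtype.val_injective)
  exact ⟨b, Basis.eq_of_apply_eq fun i => by rw [Basis.baseChange_apply, hb]; exact hv i⟩

end Adic

variable {𝒪 : Type} [CommRing 𝒪] [IsLocalRing 𝒪]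
variable {A : Type} [CommRing A] [IsLocalRing A] [Algebra 𝒪 A]
variable {W : Rigid 𝒪} {ρbar : ResidualGaloisRep (ResidueField 𝒪)}
variable {bb : Basis (Fin 2) (ResidueField 𝒪) ρbar.V}

theorem lifts_iff (h : IsResAlg 𝒪 A) (r : Gal →* M2 A) :
    haveI := h.isLocalHom
    Lifts W h r ↔ mapM (residue A) r = mapM (ResidueField.map (algebraMap 𝒪 A)) W.rb := by
  haveI := h.isLocalHom
  constructor
  · intro hr
    ext σ i j
    rw [mapM_apply, mapM_apply, ← hr σ i j, map_augment]
  · intro hr σ i j
    apply (ResidueField.map (algebraMap 𝒪 A)).injective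
    rw [map_augment]
    exact congr_fun (congr_fun (DFunLike.congr_fun hr σ) i) j

theorem exists_lifts_basis (hW : W.rb = matRes ρbar bb) (h : IsResAlg 𝒪 A)
    [IsLocalHom (algebraMap 𝒪 A)] (ρ : GaloisRepAdic A)
    (he : ρ.residual.IsEquiv (ρbar.baseChangeAlong (ResidueField.map (algebraMap 𝒪 A)))) :
    ∃ b : Basis (Fin 2) A ρ.V, Lifts W h (matOf ρ b) := by
  obtain ⟨e⟩ := he
  letI := (ResidueField.map (algebraMap 𝒪 A)).toAlgebra
  let b' : Basis (Fin 2) (ResidueField A) ρ.residual.V :=
    (bb.baseChange (ResidueField A)).map e.symm.toLinearEquiv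
  obtain ⟨b, hb⟩ := exists_basis_lift ρ b'
  refine ⟨b, (lifts_iff h _).mpr ?_⟩
  rw [← matRes_residual ρ b, hb, hW, ← matRes_baseChangeAlong]
  exact matRes_eq_of_equiv e.symm _

theorem residual_isEquiv_of_lifts (hW : W.rb = matRes ρbar bb) (h : IsResAlg 𝒪 A)
    [IsLocalHom (algebraMap 𝒪 A)] (ρ : GaloisRepAdic A) (b : Basis (Fin 2) A ρ.V)
    (hl : Lifts W h (matOf ρ b)) :
    ρ.residual.IsEquiv (ρbar.baseChangeAlong (ResidueField.map (algebraMap 𝒪 A))) := by
  letI := (ResidueField.map (algebraMap 𝒪 A)).toAlgebra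
  refine isEquiv_of_matRes_eq (b.baseChange (ResidueField A)) (bb.baseChange (ResidueField A)) ?_
  rw [matRes_residual, (lifts_iff h _).mp hl, hW]
  exact (matRes_baseChangeAlong (ResidueField.map (algebraMap 𝒪 A)) ρbar bb).symm

/-- Rigidifying data exists for an absolutely irreducible representation. -/
theorem exists_rigid (ρbar : ResidualGaloisRep (ResidueField 𝒪))
    (habs : ρbar.IsAbsolutelyIrreducible) (bb : Basis (Fin 2) (ResidueField 𝒪) ρbar.V) :
    ∃ W : Rigid 𝒪, W.rb = matRes ρbar bb := by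
  have key : ∀ M : M2 (ResidueField 𝒪),
      ∃ c : Gal →₀ 𝒪, (c.sum fun σ o => o • matRes ρbar bb σ) = M := by
    intro M
    have hM : M ∈ Submodule.span (ResidueField 𝒪) (Set.range (matRes ρbar bb)) := by
      have := span_matrix_eq_top ρbar habs bb
      exact (SetLike.ext_iff.mp this M).mpr Submodule.mem_top
    obtain ⟨c, hc⟩ := (Finsupp.mem_span_range_iff_exists_finsupp).mp hM
    choose s hs using fun x : ResidueField 𝒪 => residue_surjective (R := 𝒪) x
    let s' : ResidueField 𝒪 → 𝒪 := fun x => by classical exact if x = 0 then 0 else s x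
    have hs' : ∀ x, residue 𝒪 (s' x) = x := by
      intro x
      by_cases hx : x = 0
      · simp [s', hx]
      · simp [s', hx, hs]
    refine ⟨c.mapRange s' (by simp [s']), ?_⟩
    rw [Finsupp.sum_mapRange_index (by simp), ← hc]
    refine Finsupp.sum_congr fun σ _ => ?_
    rw [← IsScalarTower.algebraMap_smul (ResidueField 𝒪) (s' (c σ)), ResidueField.algebraMap_eq,
      hs']
  obtain ⟨cX, hX⟩ := key (Matrix.single 0 0 1)
  obtain ⟨cY, hY⟩ := key (Matrix.single 1 0 1)
  exact ⟨⟨matRes ρbar bb, cX, cY, hX, hY⟩, rfl⟩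

end Fermat.Agent.Deform
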