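import Fermat.Agent.Deform.Level

/-!
# Bounding coefficient algebras by their dual number points

A finite level coefficient algebra has bounded size when its maps to the dual numbers are
bounded in number: derivations into the residue field detect generators of the maximal ideal.
-/

set_option autoImplicit false
set_option linter.style.haveILetI false

noncomputable section

namespace Fermat.Agent.Deform

open IsLocalRing Module

variable (𝒪 : Type) [CommRing 𝒪] [IsLocalRing 𝒪]

/-- The `𝒪`-algebra structure of the dual numbers over the residue field, as in the Prelude. -/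
abbrev dualAlgebra : Algebra 𝒪 (DualNumber (ResidueField 𝒪)) :=
  ((algebraMap (ResidueField 𝒪) (DualNumber (ResidueField 𝒪))).comp
    (algebraMap 𝒪 (ResidueField 𝒪))).toAlgebra

theorem isLevel_dual [Finite (ResidueField 𝒪)] :
    letI := dualAlgebra 𝒪
    IsLevel 𝒪 1 (DualNumber (ResidueField 𝒪)) := by
  letI := dualAlgebra 𝒪
  have hmem : ∀ x : DualNumber (ResidueField 𝒪),
      x ∈ maximalIdeal (DualNumber (ResidueField 𝒪)) ↔ x.fst = 0 := fun x => by
    rw [IsLocalRing.mem_maximalIdeal, mem_nonunits_iff, TrivSqZeroExt.isUnit_iff_isUnit_fst,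
      isUnit_iff_ne_zero, not_not]
  refine ⟨inferInstanceAs (Finite (ResidueField 𝒪 × ResidueField 𝒪)), ⟨⟨fun o ho => ?_⟩,
    fun z => ?_⟩, ?_⟩
  · rw [TrivSqZeroExt.isUnit_iff_isUnit_fst, isUnit_iff_ne_zero] at ho
    by_contra hno
    exact ho (by
      show residue 𝒪 o = 0
      exact (residue_eq_zero_iff o).mpr hno)
  · obtain ⟨x, rfl⟩ := residue_surjective z
    obtain ⟨o, ho⟩ := residue_surjective (R := 𝒪) x.fst
    refine ⟨o, ?_⟩
    show residue _ (algebraMap 𝒪 (DualNumber (ResidueField 𝒪)) o) = residue _ x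
    rw [← sub_eq_zero, ← map_sub, residue_eq_zero_iff, hmem, TrivSqZeroExt.fst_sub]
    show residue 𝒪 o - x.fst = 0
    rw [ho, sub_self]
  · refine le_bot_iff.mp ?_
    rw [pow_two, Ideal.mul_le]
    intro a ha b hb
    rw [Ideal.mem_bot]
    rw [hmem] at ha hb
    refine TrivSqZeroExt.ext ?_ ?_
    · simp [ha]
    · simp [ha, hb]

variable {𝒪}
variable {A : Type} [CommRing A] [IsLocalRing A] [Algebra 𝒪 A] {n : ℕ}

section Tangent

variable {R : Type} [CommRing R] [IsLocalRing R] [Algebra 𝒪 R]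

/-- Derivations into the residue field of `𝒪` killing the image of `𝒪`. -/
def tangentDer (h : IsResAlg 𝒪 R) : Submodule (ResidueField 𝒪) (R → ResidueField 𝒪) where
  carrier := {δ | (∀ a b, δ (a + b) = δ a + δ b) ∧
    (∀ a b, δ (a * b) = augment h a * δ b + augment h b * δ a) ∧ ∀ o, δ (algebraMap 𝒪 R o) = 0}
  add_mem' := fun {x y} hx hy => by
    refine ⟨fun a b => ?_, fun a b => ?_, fun o => ?_⟩ <;> simp only [Pi.add_apply]
    · rw [hx.1, hy.1]; ring
    · rw [hx.2.1, hy.2.1]; ring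
    · rw [hx.2.2, hy.2.2, add_zero]
  zero_mem' := by simp
  smul_mem' := fun c x hx => by
    refine ⟨fun a b => ?_, fun a b => ?_, fun o => ?_⟩ <;> simp only [Pi.smul_apply, smul_eq_mul]
    · rw [hx.1]; ring
    · rw [hx.2.1]; ring
    · rw [hx.2.2, mul_zero]

variable (h : IsResAlg 𝒪 R)

theorem tangentDer_zero (δ : tangentDer h) : δ.1 0 = 0 := by
  simpa using δ.2.2.2 0

theorem tangentDer_one (δ : tangentDer h) : δ.1 1 = 0 := by
  simpa using δ.2.2.2 1

/-- The dual number valued algebra homomorphism of a derivation. -/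
def tangentHom (δ : tangentDer h) :
    letI := dualAlgebra 𝒪
    R →ₐ[𝒪] DualNumber (ResidueField 𝒪) :=
  letI := dualAlgebra 𝒪
  { toFun := fun a => (augment h a, δ.1 a)
    map_one' := TrivSqZeroExt.ext (map_one (augment h)) (tangentDer_one h δ)
    map_mul' := fun a b => TrivSqZeroExt.ext (map_mul (augment h) a b) (by
      show δ.1 (a * b) = augment h a • δ.1 b + MulOpposite.op (augment h b) • δ.1 a
      rw [δ.2.2.1]
      simp [mul_comm])
    map_zero' := TrivSqZeroExt.ext (map_zero (augment h)) (tangentDer_zero h δ)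
    map_add' := fun a b => TrivSqZeroExt.ext (map_add (augment h) a b) (δ.2.1 a b)
    commutes' := fun o => TrivSqZeroExt.ext (AlgHom.commutes (augment h) o) (δ.2.2.2 o) }

@[simp]
theorem fst_tangentHom (δ : tangentDer h) (a : R) :
    letI := dualAlgebra 𝒪
    TrivSqZeroExt.fst (tangentHom h δ a) = augment h a := rfl

@[simp]
theorem snd_tangentHom (δ : tangentDer h) (a : R) :
    letI := dualAlgebra 𝒪
    TrivSqZeroExt.snd (tangentHom h δ a) = δ.1 a := rfl

theorem tangentHom_injective : Function.Injective (tangentHom h) := fun δ δ' he =>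
  Subtype.ext (funext fun a =>
    letI := dualAlgebra 𝒪
    (snd_tangentHom h δ a).symm.trans ((congrArg TrivSqZeroExt.snd (DFunLike.congr_fun he a)).trans
      (snd_tangentHom h δ' a)))

/-- A derivation is determined by its values on generators of the maximal ideal. -/
theorem tangentDer_eq_zero_of_generators {t : Set R} (ht : Ideal.span t = maximalIdeal R)
    (δ : tangentDer h) (hδ : ∀ a ∈ t, δ.1 a = 0) : δ = 0 := by
  have hm : ∀ a ∈ maximalIdeal R, δ.1 a = 0 := by
    rw [← ht]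
    intro a ha
    refine (Submodule.span_induction (p := fun a _ => δ.1 a = 0 ∧ augment h a = 0) ?_ ?_ ?_ ?_ ha).1
    · exact fun x hx => ⟨hδ x hx, (augment_eq_zero_iff h x).mpr (ht ▸ Ideal.subset_span hx)⟩
    · exact ⟨tangentDer_zero h δ, map_zero _⟩
    · exact fun x y _ _ hx hy => ⟨by rw [δ.2.1, hx.1, hy.1, add_zero], by
        rw [map_add, hx.2, hy.2, add_zero]⟩
    · exact fun c x _ hx => ⟨by
        rw [smul_eq_mul, δ.2.2.1, hx.1, hx.2, mul_zero, zero_mul, add_zero],
        by rw [smul_eq_mul, map_mul, hx.2, mul_zero]⟩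
  refine Subtype.ext (funext fun a => ?_)
  obtain ⟨o, ho⟩ := exists_sub_mem h a
  have := δ.2.1 (a - algebraMap 𝒪 R o) (algebraMap 𝒪 R o)
  rw [sub_add_cancel, hm _ ho, δ.2.2.2, add_zero] at this
  exact this

variable [IsNoetherianRing R]

/-- Elements detecting derivations generate the relative cotangent space. -/
theorem maximalIdeal_le_of_detect {S : Set R} (hS : S ⊆ maximalIdeal R)
    (hdet : ∀ δ : tangentDer h, (∀ a ∈ S, δ.1 a = 0) → δ = 0) :
    maximalIdeal R ≤ Ideal.span S ⊔ (maximalIdeal 𝒪).map (algebraMap 𝒪 R) := by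
  haveI := h.isLocalHom
  set I' := Ideal.span S ⊔ (maximalIdeal 𝒪).map (algebraMap 𝒪 R)
  have hI'le : I' ≤ maximalIdeal R := sup_le (Ideal.span_le.mpr hS)
    (Ideal.map_le_iff_le_comap.mpr fun o ho => map_nonunit (algebraMap 𝒪 R) o ho)
  suffices hle : maximalIdeal R ≤ I' ⊔ maximalIdeal R • maximalIdeal R from
    Submodule.le_of_le_smul_of_le_jacobson_bot (IsNoetherian.noetherian _)
      (maximalIdeal_le_jacobson _) hle
  set J : Ideal R := I' ⊔ maximalIdeal R • maximalIdeal R
  by_contra hne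
  obtain ⟨x, hx, hxJ⟩ := SetLike.not_le_iff_exists.mp hne
  let algk : ResidueField 𝒪 →+* R ⧸ J :=
    Ideal.Quotient.lift (maximalIdeal 𝒪) ((Ideal.Quotient.mk J).comp (algebraMap 𝒪 R))
      fun o ho => Ideal.Quotient.eq_zero_iff_mem.mpr
        (Ideal.mem_sup_left (Ideal.mem_sup_right (Ideal.mem_map_of_mem _ ho)))
  letI := algk.toAlgebra
  have halg : ∀ o : 𝒪, algebraMap (ResidueField 𝒪) (R ⧸ J) (residue 𝒪 o) =
      Ideal.Quotient.mk J (algebraMap 𝒪 R o) := fun o => rfl
  let L : Submodule (ResidueField 𝒪) (R ⧸ J) := Submodule.span _ {1}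
  have hxL : Ideal.Quotient.mk J x ∉ L := by
    intro hmem
    obtain ⟨c, hc⟩ := Submodule.mem_span_singleton.mp hmem
    obtain ⟨o, rfl⟩ := residue_surjective (R := 𝒪) c
    rw [Algebra.smul_def, mul_one, halg, Ideal.Quotient.eq] at hc
    have h1 : algebraMap 𝒪 R o ∈ maximalIdeal R := by
      have := add_mem ((sup_le hI'le Ideal.mul_le_left : J ≤ maximalIdeal R) hc) hx
      rwa [sub_add_cancel] at this
    have h2 : algebraMap 𝒪 R o ∈ J := by
      refine Ideal.mem_sup_left (Ideal.mem_sup_right (Ideal.mem_map_of_mem _ ?_))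
      exact fun hu => h1 (hu.map _)
    exact hxJ (by simpa using sub_mem h2 hc)
  obtain ⟨f, hfx, hfL⟩ := Submodule.exists_dual_map_eq_bot_of_notMem hxL inferInstance
  have hf1 : f 1 = 0 := by
    have h1 := Submodule.mem_map_of_mem (f := f) (Submodule.mem_span_singleton_self (1 : R ⧸ J))
    rwa [hfL, Submodule.mem_bot] at h1
  have hmk : ∀ a b, f (Ideal.Quotient.mk J (a * b)) =
      augment h a * f (Ideal.Quotient.mk J b) + augment h b * f (Ideal.Quotient.mk J a) := by
    intro a b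
    obtain ⟨o, ho⟩ := exists_sub_mem h a
    obtain ⟨o', ho'⟩ := exists_sub_mem h b
    have e : ∀ {c : R} {u : 𝒪}, c - algebraMap 𝒪 R u ∈ maximalIdeal R →
        augment h c = residue 𝒪 u := fun {c u} hc => by
      have := (augment_eq_zero_iff h _).mpr hc
      rwa [map_sub, AlgHom.commutes, sub_eq_zero] at this
    have h0 : Ideal.Quotient.mk J ((a - algebraMap 𝒪 R o) * (b - algebraMap 𝒪 R o')) = 0 :=
      Ideal.Quotient.eq_zero_iff_mem.mpr (Ideal.mem_sup_right (Submodule.smul_mem_smul ho ho'))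
    have h1 : Ideal.Quotient.mk J (a * b) =
        residue 𝒪 o • Ideal.Quotient.mk J b + residue 𝒪 o' • Ideal.Quotient.mk J a -
          (residue 𝒪 o * residue 𝒪 o') • (1 : R ⧸ J) := by
      simp only [Algebra.smul_def, map_mul, halg, mul_one]
      simp only [map_mul, map_sub] at h0
      linear_combination h0
    rw [h1, map_sub, map_add, map_smul, map_smul, map_smul, hf1, e ho, e ho']
    simp
  let δ : tangentDer h := ⟨fun a => f (Ideal.Quotient.mk J a),
    fun a b => by simp [map_add], hmk, fun o => by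
      show f (Ideal.Quotient.mk J (algebraMap 𝒪 R o)) = 0
      rw [← halg, Algebra.algebraMap_eq_smul_one, map_smul, hf1, smul_zero]⟩
  have := hdet δ fun a ha => by
    show f (Ideal.Quotient.mk J a) = 0
    rw [Ideal.Quotient.eq_zero_iff_mem.mpr
      (Ideal.mem_sup_left (Ideal.mem_sup_left (Ideal.subset_span ha))), map_zero]
  exact hfx (congr_fun (congrArg Subtype.val this) x)

end Tangent

theorem exists_generators [Finite (ResidueField 𝒪)] (hA : IsLevel 𝒪 n A) (N : ℕ)
    (hfin : letI := dualAlgebra 𝒪; Finite (A →ₐ[𝒪] DualNumber (ResidueField 𝒪)))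
    (hN : letI := dualAlgebra 𝒪; Nat.card (A →ₐ[𝒪] DualNumber (ResidueField 𝒪)) ≤ N) :
    ∃ s : Fin N → A, (∀ i, s i ∈ maximalIdeal A) ∧
      maximalIdeal A ≤
        Ideal.span (Set.range s) ⊔ (maximalIdeal 𝒪).map (algebraMap 𝒪 A) := by
  classical
  letI := dualAlgebra 𝒪
  haveI := hA.finite
  haveI := hfin
  have hinj := tangentHom_injective hA.resAlg
  haveI := Finite.of_injective _ hinj
  haveI : Fintype (tangentDer hA.resAlg) := Fintype.ofFinite _
  obtain ⟨e⟩ : Nonempty (tangentDer hA.resAlg ↪ Fin N) := Function.Embedding.nonempty_of_card_le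
    (by rw [Fintype.card_fin, ← Nat.card_eq_fintype_card]
        exact (Nat.card_le_card_of_injective _ hinj).trans hN)
  have hex : ∀ δ : tangentDer hA.resAlg, ∃ a ∈ maximalIdeal A, δ.1 a = 0 → δ = 0 := fun δ => by
    by_cases hδ : δ = 0
    · exact ⟨0, zero_mem _, fun _ => hδ⟩
    · by_contra! h
      exact hδ (tangentDer_eq_zero_of_generators _ (Ideal.span_eq _) δ fun a ha => (h a ha).1)
  choose pre hpre hzero using hex
  have hs : ∀ i, Function.extend e pre 0 i ∈ maximalIdeal A := fun i => by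
    by_cases hi : ∃ δ, e δ = i
    · obtain ⟨δ, rfl⟩ := hi
      rw [e.injective.extend_apply]
      exact hpre δ
    · rw [Function.extend_apply' _ _ _ hi]
      exact zero_mem _
  exact ⟨_, hs, maximalIdeal_le_of_detect hA.resAlg (Set.range_subset_iff.mpr hs) fun δ hδ =>
    hzero δ (hδ _ ⟨e δ, e.injective.extend_apply ..⟩)⟩

/-- The ideal `(m_𝒪, X)` of a polynomial ring. -/
def polyIdeal (𝒪 : Type) [CommRing 𝒪] [IsLocalRing 𝒪] (N : ℕ) : Ideal (MvPolynomial (Fin N) 𝒪) :=
  (maximalIdeal 𝒪).map MvPolynomial.C ⊔ MvPolynomial.idealOfVars (Fin N) 𝒪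

theorem finite_quotient_polyIdeal_pow [IsNoetherianRing 𝒪] [Finite (ResidueField 𝒪)] (N n : ℕ) :
    Finite (MvPolynomial (Fin N) 𝒪 ⧸ polyIdeal 𝒪 N ^ n) := by
  haveI : Finite (MvPolynomial (Fin N) 𝒪 ⧸ polyIdeal 𝒪 N) := by
    let f : ResidueField 𝒪 →+* MvPolynomial (Fin N) 𝒪 ⧸ polyIdeal 𝒪 N :=
      Ideal.Quotient.lift (maximalIdeal 𝒪)
        ((Ideal.Quotient.mk (polyIdeal 𝒪 N)).comp MvPolynomial.C)
        (fun o ho => Ideal.Quotient.eq_zero_iff_mem.mpr
          (Ideal.mem_sup_left (Ideal.mem_map_of_mem _ ho)))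
    refine Finite.of_surjective f fun y => ?_
    obtain ⟨p, rfl⟩ := Ideal.Quotient.mk_surjective y
    induction p using MvPolynomial.induction_on with
    | C o => exact ⟨residue 𝒪 o, rfl⟩
    | add p q hp hq =>
      obtain ⟨a, ha⟩ := hp
      obtain ⟨b, hb⟩ := hq
      exact ⟨a + b, by rw [map_add, map_add, ha, hb]⟩
    | mul_X p i _ =>
      refine ⟨0, ?_⟩
      rw [map_zero, eq_comm, Ideal.Quotient.eq_zero_iff_mem]
      exact Ideal.mul_mem_left _ _ (Ideal.mem_sup_right (Ideal.subset_span ⟨i, rfl⟩))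
  exact Ideal.finite_quotient_pow (IsNoetherian.noetherian _) _

theorem card_le_of_card_algHom [IsNoetherianRing 𝒪] [Finite (ResidueField 𝒪)]
    (hA : IsLevel 𝒪 n A) (N : ℕ)
    (hfin : letI := dualAlgebra 𝒪; Finite (A →ₐ[𝒪] DualNumber (ResidueField 𝒪)))
    (hN : letI := dualAlgebra 𝒪; Nat.card (A →ₐ[𝒪] DualNumber (ResidueField 𝒪)) ≤ N) :
    Nat.card A ≤ Nat.card (MvPolynomial (Fin N) 𝒪 ⧸ polyIdeal 𝒪 N ^ (n + 1)) := by
  obtain ⟨s, hs, hgen⟩ := exists_generators hA N hfin hN
  let φ : MvPolynomial (Fin N) 𝒪 →ₐ[𝒪] A := MvPolynomial.aeval s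
  have hM : (polyIdeal 𝒪 N).map (φ : _ →+* A) = maximalIdeal A := by
    rw [polyIdeal, Ideal.map_sup, Ideal.map_map, MvPolynomial.idealOfVars, Ideal.map_span,
      ← Set.range_comp]
    have hC : (φ : MvPolynomial (Fin N) 𝒪 →+* A).comp MvPolynomial.C = algebraMap 𝒪 A :=
      RingHom.ext fun o => MvPolynomial.aeval_C s o
    have hX : (⇑(φ : MvPolynomial (Fin N) 𝒪 →+* A) ∘ MvPolynomial.X) = s :=
      funext fun i => MvPolynomial.aeval_X s i
    rw [hC, hX]
    refine le_antisymm (sup_le (Ideal.map_le_iff_le_comap.mpr fun o ho =>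
        haveI := hA.resAlg.isLocalHom
        map_nonunit (algebraMap 𝒪 A) o ho) ?_)
      (hgen.trans (le_of_eq (sup_comm _ _)))
    rw [Ideal.span_le]
    rintro _ ⟨i, rfl⟩
    exact hs i
  letI := (φ : MvPolynomial (Fin N) 𝒪 →+* A).toAlgebra
  let R := LinearMap.range (Algebra.linearMap (MvPolynomial (Fin N) 𝒪) A)
  have hI : ∀ j, polyIdeal 𝒪 N ^ j • (⊤ : Submodule (MvPolynomial (Fin N) 𝒪) A) =
      (maximalIdeal A ^ j).restrictScalars _ := fun j => by
    rw [Ideal.smul_top_eq_map, Ideal.map_pow]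
    exact congrArg (fun K : Ideal A => Submodule.restrictScalars _ (K ^ j)) hM
  have hR : ⊤ ≤ R ⊔ polyIdeal 𝒪 N • ⊤ := fun a _ => by
    obtain ⟨o, ho⟩ := exists_sub_mem hA.resAlg a
    rw [← pow_one (polyIdeal 𝒪 N), hI, pow_one, ← add_sub_cancel (algebraMap 𝒪 A o) a]
    exact Submodule.add_mem_sup ⟨MvPolynomial.C o, MvPolynomial.aeval_C s o⟩ ho
  have hsurj : ∀ j, ⊤ ≤ R ⊔ polyIdeal 𝒪 N ^ j • ⊤ := by
    intro j
    induction j with
    | zero => rw [pow_zero, Ideal.one_eq_top, Submodule.top_smul]; exact le_sup_right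
    | succ j ih =>
      refine ih.trans (sup_le le_sup_left ((smul_mono_right _ hR).trans ?_))
      rw [Submodule.smul_sup, ← Submodule.mul_smul, ← pow_succ]
      exact sup_le_sup_right Submodule.smul_le_right _
  haveI := finite_quotient_polyIdeal_pow (𝒪 := 𝒪) N (n + 1)
  let F : MvPolynomial (Fin N) 𝒪 ⧸ polyIdeal 𝒪 N ^ (n + 1) →+* A :=
    Ideal.Quotient.lift _ (φ : _ →+* A) fun p hp => by
      have h1 := Ideal.mem_map_of_mem (φ : _ →+* A) hp
      rwa [Ideal.map_pow, hM, hA.pow_eq_bot, Ideal.mem_bot] at h1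
  refine Nat.card_le_card_of_surjective F fun a => ?_
  obtain ⟨p, rfl⟩ : a ∈ R := by
    have h := hsurj (n + 1) (Submodule.mem_top (x := a))
    rwa [hI, hA.pow_eq_bot, Submodule.restrictScalars_bot, sup_bot_eq] at h
  exact ⟨Ideal.Quotient.mk _ p, rfl⟩

end Fermat.Agent.Deform
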