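import Fermat.Agent.Deform.Residual

/-!
# Normalised deformations of finite level

Coefficient algebras with `m ^ (n + 1) = 0`, corestriction to the algebra generated by the
entries, and the objects `Obj` among which a universal one is chosen.
-/

set_option autoImplicit false
set_option linter.style.haveILetI false

noncomputable section

namespace Fermat.Agent.Deform

open IsLocalRing Module

variable {𝒪 : Type} [CommRing 𝒪] [IsLocalRing 𝒪]

/-- A finite coefficient algebra with `m ^ (n + 1) = 0`. -/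
structure IsLevel (𝒪 : Type) [CommRing 𝒪] [IsLocalRing 𝒪] (n : ℕ) (A : Type) [CommRing A]
    [IsLocalRing A] [Algebra 𝒪 A] : Prop where
  finite : Finite A
  resAlg : IsResAlg 𝒪 A
  pow_eq_bot : maximalIdeal A ^ (n + 1) = ⊥

variable {A B : Type} [CommRing A] [IsLocalRing A] [Algebra 𝒪 A]
variable [CommRing B] [IsLocalRing B] [Algebra 𝒪 B] {n : ℕ}

theorem IsLevel.test (h : IsLevel 𝒪 n A) : GaloisRep.IsArtinianTestAlgebra 𝒪 A :=
  haveI := h.finite
  ⟨h.resAlg.isLocalHom, h.resAlg.residue_surjective, inferInstance⟩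

theorem IsLevel.succ (h : IsLevel 𝒪 n A) : IsLevel 𝒪 (n + 1) A :=
  ⟨h.finite, h.resAlg, le_bot_iff.mp (h.pow_eq_bot ▸ Ideal.pow_le_pow_right (by omega))⟩

theorem IsLevel.pow_eq_zero (h : IsLevel 𝒪 n A) {a : A} (ha : a ∈ maximalIdeal A) :
    a ^ (n + 1) = 0 := by
  rw [← Ideal.mem_bot, ← h.pow_eq_bot]; exact Ideal.pow_mem_pow ha _

theorem IsLevel.isLocalHom_algHom (h : IsLevel 𝒪 n A) (φ : A →ₐ[𝒪] B) :
    IsLocalHom (φ : A →+* B) := by
  refine ⟨fun a ha => ?_⟩
  by_contra hna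
  have h1 := (ha.pow (n + 1))
  rw [← map_pow, h.pow_eq_zero hna, map_zero] at h1
  exact not_isUnit_zero h1

theorem isUnit_of_augmentation {C : Type} [CommRing C] [Algebra 𝒪 C]
    (ψ : C →ₐ[𝒪] ResidueField 𝒪) (hψ : ∀ x, ψ x = 0 → IsNilpotent x) {x : C} (hx : ψ x ≠ 0) :
    IsUnit x := by
  obtain ⟨o, ho⟩ := residue_surjective (R := 𝒪) (ψ x)
  have hn : IsNilpotent (x - algebraMap 𝒪 C o) := hψ _ (by
    rw [map_sub, AlgHom.commutes, ResidueField.algebraMap_eq, ho, sub_self])
  have hu : IsUnit (algebraMap 𝒪 C o) := IsUnit.map _ (by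
    rw [← residue_ne_zero_iff_isUnit, ho]; exact hx)
  have := hn.isUnit_add_left_of_commute hu (Commute.all _ _)
  rwa [add_sub_cancel] at this

theorem isLocalRing_of_augmentation {C : Type} [CommRing C] [Algebra 𝒪 C]
    (ψ : C →ₐ[𝒪] ResidueField 𝒪) (hψ : ∀ x, ψ x = 0 → IsNilpotent x) : IsLocalRing C := by
  haveI : Nontrivial C := ψ.toRingHom.domain_nontrivial
  refine IsLocalRing.of_nonunits_add fun a b ha hb hab => ?_
  have h1 : ψ a = 0 := by by_contra h; exact ha (isUnit_of_augmentation ψ hψ h)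
  have h2 : ψ b = 0 := by by_contra h; exact hb (isUnit_of_augmentation ψ hψ h)
  have h3 := hab.map ψ
  rw [map_add, h1, h2, add_zero] at h3
  exact not_isUnit_zero h3

theorem isLevel_of_jointly_injective {C : Type} [CommRing C] [IsLocalRing C] [Algebra 𝒪 C]
    [Finite C] {A' : Type} [CommRing A'] [IsLocalRing A'] [Algebra 𝒪 A']
    (hA : IsLevel 𝒪 n A) (hA' : IsLevel 𝒪 n A') (f : C →ₐ[𝒪] A) (g : C →ₐ[𝒪] A')
    (hinj : Function.Injective fun x => (f x, g x)) : IsLevel 𝒪 n C := by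
  let ψ := (augment hA.resAlg).comp f
  refine ⟨inferInstance, ⟨⟨fun o ho => ?_⟩, fun z => ?_⟩, le_bot_iff.mp fun x hx => ?_⟩
  · have h1 := ho.map ψ
    rw [AlgHom.commutes, ResidueField.algebraMap_eq] at h1
    by_contra hno
    rw [(residue_eq_zero_iff o).mpr hno] at h1
    exact not_isUnit_zero h1
  · obtain ⟨x, rfl⟩ := residue_surjective z
    obtain ⟨o, ho⟩ := residue_surjective (R := 𝒪) (ψ x)
    refine ⟨o, ?_⟩
    show residue C (algebraMap 𝒪 C o) = residue C x
    rw [eq_comm, ← sub_eq_zero, ← map_sub, residue_eq_zero_iff]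
    intro hu
    have h1 := hu.map ψ
    rw [map_sub, AlgHom.commutes, ResidueField.algebraMap_eq, ho, sub_self] at h1
    exact not_isUnit_zero h1
  · have aux : ∀ {X : Type} [CommRing X] [IsLocalRing X] [Algebra 𝒪 X] (_ : IsLevel 𝒪 n X)
        (φ : C →ₐ[𝒪] X), φ x = 0 := by
      intro X _ _ _ hX φ
      haveI : IsArtinianRing C := inferInstance
      haveI : IsLocalHom (φ : C →+* X) := ⟨fun c hc => by
        by_contra hnc
        obtain ⟨N, hN⟩ := (isArtinianRing_iff_isNilpotent_maximalIdeal C).mp inferInstance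
        have hN : c ^ N = 0 := by
          have := Ideal.pow_mem_pow (show c ∈ maximalIdeal C from hnc) N
          rwa [hN, Ideal.zero_eq_bot, Ideal.mem_bot] at this
        have h1 := hc.pow N
        rw [← map_pow, hN, map_zero] at h1
        exact not_isUnit_zero h1⟩
      have h1 := Ideal.mem_map_of_mem (φ : C →+* X) hx
      rw [Ideal.map_pow] at h1
      have h2 : (maximalIdeal C).map (φ : C →+* X) ≤ maximalIdeal X :=
        Ideal.map_le_iff_le_comap.mpr fun a ha => map_nonunit (φ : C →+* X) a ha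
      have h3 := Ideal.pow_right_mono h2 (n + 1) h1
      rwa [hX.pow_eq_bot, Ideal.mem_bot] at h3
    rw [Ideal.mem_bot]
    exact hinj (by simp [aux hA f, aux hA' g])

/-- Corestriction of a matrix representation. -/
def corestrict {R : Type} [CommRing R] [Algebra 𝒪 R] (S : Subalgebra 𝒪 R) (r : Gal →* M2 R)
    (h : ∀ σ i j, r σ i j ∈ S) : Gal →* M2 S where
  toFun σ := Matrix.of fun i j => ⟨r σ i j, h σ i j⟩
  map_one' := by
    ext i j
    show r 1 i j = (((1 : M2 S) i j : S) : R)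
    rw [map_one]
    by_cases hij : i = j
    · subst hij; simp only [Matrix.one_apply_eq, OneMemClass.coe_one]
    · simp only [Matrix.one_apply_ne hij, ZeroMemClass.coe_zero]
  map_mul' σ τ := by
    have hinj : Function.Injective (S.val.toRingHom.mapMatrix : M2 S → M2 R) :=
      Matrix.map_injective Subtype.val_injective
    apply hinj
    refine Eq.trans ?_ (map_mul _ _ _).symm
    show r (σ * τ) = r σ * r τ
    exact map_mul r σ τ

set_option linter.unusedSectionVars false in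
theorem mapM_corestrict {R : Type} [CommRing R] [Algebra 𝒪 R] (S : Subalgebra 𝒪 R)
    (r : Gal →* M2 R) (h : ∀ σ i j, r σ i j ∈ S) :
    mapM (S.val : S →+* R) (corestrict S r h) = r := by
  ext σ i j; rfl

/-- The set of matrix entries. -/
def entries {R : Type} (r : Gal → M2 R) : Set R := Set.range fun p : Gal × Fin 2 × Fin 2 =>
  r p.1 p.2.1 p.2.2

set_option linter.unusedSectionVars false in
theorem algHom_eq_of_entries {R S : Type} [CommRing R] [Algebra 𝒪 R] [CommRing S] [Algebra 𝒪 S]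
    {r : Gal →* M2 R} (hgen : Algebra.adjoin 𝒪 (entries r) = ⊤) {φ φ' : R →ₐ[𝒪] S}
    (h : mapM (φ : R →+* S) r = mapM (φ' : R →+* S) r) : φ = φ' := by
  refine AlgHom.ext_of_adjoin_eq_top hgen ?_
  rintro _ ⟨⟨σ, i, j⟩, rfl⟩
  exact congr_fun (congr_fun (DFunLike.congr_fun h σ) i) j

omit [IsLocalRing 𝒪] in
theorem surjective_of_entries {R S : Type} [CommRing R] [Algebra 𝒪 R] [CommRing S] [Algebra 𝒪 S]
    {r : Gal →* M2 R} {s : Gal →* M2 S} (hgen : Algebra.adjoin 𝒪 (entries s) = ⊤)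
    (φ : R →ₐ[𝒪] S) (h : mapM (φ : R →+* S) r = s) : Function.Surjective φ := by
  rw [← AlgHom.range_eq_top, eq_top_iff, ← hgen]
  refine Algebra.adjoin_le ?_
  rintro _ ⟨⟨σ, i, j⟩, rfl⟩
  exact ⟨r σ i j, congr_fun (congr_fun (DFunLike.congr_fun h σ) i) j⟩

omit [IsLocalRing 𝒪] in
theorem adjoin_entries_corestrict {R : Type} [CommRing R] [Algebra 𝒪 R] (r : Gal →* M2 R) :
    Algebra.adjoin 𝒪 (entries (corestrict (Algebra.adjoin 𝒪 (entries r)) r
      fun σ i j => Algebra.subset_adjoin ⟨(σ, i, j), rfl⟩)) = ⊤ := by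
  apply Subalgebra.map_injective (f := (Algebra.adjoin 𝒪 (entries r)).val) Subtype.val_injective
  rw [AlgHom.map_adjoin, Algebra.map_top, Subalgebra.range_val]
  congr 1
  ext x
  constructor
  · rintro ⟨_, ⟨p, rfl⟩, rfl⟩; exact ⟨p, rfl⟩
  · rintro ⟨p, rfl⟩; exact ⟨_, ⟨p, rfl⟩, rfl⟩

variable (W : Rigid 𝒪)
variable (𝒟 : ∀ ⦃A : Type⦄ [CommRing A] [IsLocalRing A] [Algebra 𝒪 A], GaloisRepAdic A → Prop)

/-- A normalised deformation of the given type. -/
structure Good (h : IsResAlg 𝒪 A) (r : Gal →* M2 A) : Prop where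
  cont : IsCont r
  lifts : Lifts W h r
  normal : IsNormal W r
  cond : 𝒟 (toRep r cont)

variable {W 𝒟}

theorem Good.map {hA : GaloisRep.IsArtinianTestAlgebra 𝒪 A}
    (hB : GaloisRep.IsArtinianTestAlgebra 𝒪 B) (h𝒟 : GaloisRep.IsDeformationCondition 𝒪 𝒟)
    {r : Gal →* M2 A} (hr : Good W 𝒟 (isResAlg_of_test hA) r) (φ : A →ₐ[𝒪] B)
    (hφ : IsLocalHom (φ : A →+* B)) :
    Good W 𝒟 (isResAlg_of_test hB) (mapM (φ : A →+* B) r) :=
  ⟨hr.cont.map _ hφ, hr.lifts.map _ φ hφ, hr.normal.map φ,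
    h𝒟.of_isEquiv hB (isEquiv_baseChangeAlong_toRep _ hφ r hr.cont)
      (h𝒟.baseChangeAlong hA hB φ hφ hr.cond)⟩

theorem Good.of_injective (hA : IsLevel 𝒪 n A) (hB : IsLevel 𝒪 n B)
    (h𝒟 : GaloisRep.IsDeformationCondition 𝒪 𝒟) (φ : A →ₐ[𝒪] B) (hφ : Function.Injective φ)
    {r : Gal →* M2 A} (hr : Good W 𝒟 hB.resAlg (mapM (φ : A →+* B) r)) :
    Good W 𝒟 hA.resAlg r := by
  have hloc := hA.isLocalHom_algHom φ
  have hcont : IsCont r := by
    obtain ⟨L, hL, h1⟩ := hr.cont.finiteLevel hB.pow_eq_bot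
    refine isCont_of_finiteLevel ⟨L, hL, fun σ hσ => ?_⟩
    apply Matrix.map_injective hφ
    show mapM (φ : A →+* B) r σ = _
    rw [h1 σ hσ]
    exact (Matrix.map_one φ (map_zero φ) (map_one φ)).symm
  exact ⟨hcont, hr.lifts.of_map φ hloc, hr.normal.of_injective φ hφ,
    h𝒟.of_baseChangeAlong_injective hA.test hB.test φ hloc hφ
      (h𝒟.of_isEquiv hB.test (isEquiv_symm (isEquiv_baseChangeAlong_toRep _ hloc r hcont))
        hr.cond)⟩

variable (W 𝒟)

/-- A normalised deformation at level `n` whose entries generate the coefficient algebra. -/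
structure Obj (n : ℕ) where
  /-- The coefficient algebra. -/
  carrier : Type
  [commRing : CommRing carrier]
  [isLocalRing : IsLocalRing carrier]
  [algebra : Algebra 𝒪 carrier]
  level : IsLevel 𝒪 n carrier
  /-- The representation. -/
  r : Gal →* M2 carrier
  good : Good W 𝒟 level.resAlg r
  gen : Algebra.adjoin 𝒪 (entries r) = ⊤

attribute [instance] Obj.commRing Obj.isLocalRing Obj.algebra

variable {W 𝒟}

theorem exists_obj (h𝒟 : GaloisRep.IsDeformationCondition 𝒪 𝒟) (hA : IsLevel 𝒪 n A)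
    {r : Gal →* M2 A} (hr : Good W 𝒟 hA.resAlg r) :
    ∃ (O : Obj W 𝒟 n) (φ : O.carrier →ₐ[𝒪] A),
      Function.Injective φ ∧ mapM (φ : O.carrier →+* A) O.r = r := by
  haveI := hA.finite
  let S := Algebra.adjoin 𝒪 (entries r)
  have hnil : ∀ x : S, ((augment hA.resAlg).comp S.val) x = 0 → IsNilpotent x := fun x hx =>
    ⟨n + 1, Subtype.ext (by
      show (x : A) ^ (n + 1) = 0
      exact hA.pow_eq_zero ((augment_eq_zero_iff hA.resAlg _).mp hx))⟩
  haveI := isLocalRing_of_augmentation _ hnil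
  have hS : IsLevel 𝒪 n S := isLevel_of_jointly_injective hA hA S.val S.val
    fun x y hxy => Subtype.val_injective (congr_arg Prod.fst hxy)
  have hmem : ∀ σ i j, r σ i j ∈ S := fun σ i j => Algebra.subset_adjoin ⟨(σ, i, j), rfl⟩
  have hgood : Good W 𝒟 hS.resAlg (corestrict S r hmem) :=
    Good.of_injective hS hA h𝒟 S.val Subtype.val_injective (by rw [mapM_corestrict]; exact hr)
  exact ⟨⟨S, hS, _, hgood, adjoin_entries_corestrict r⟩, S.val, Subtype.val_injective,
    mapM_corestrict S r hmem⟩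

theorem isLevel_residueField [Finite (ResidueField 𝒪)] (n : ℕ) :
    IsLevel 𝒪 n (ResidueField 𝒪) :=
  ⟨inferInstance, isResAlg_residueField, by
    rw [IsLocalRing.maximalIdeal_eq_bot, Ideal.bot_pow]
    omega⟩

theorem exists_pair [Finite (ResidueField 𝒪)] (h𝒟 : GaloisRep.IsDeformationCondition 𝒪 𝒟)
    (O : Obj W 𝒟 n) (hA : IsLevel 𝒪 n A) {r : Gal →* M2 A} (hr : Good W 𝒟 hA.resAlg r) :
    ∃ (P : Obj W 𝒟 n) (f : P.carrier →ₐ[𝒪] O.carrier) (g : P.carrier →ₐ[𝒪] A),
      mapM (f : P.carrier →+* O.carrier) P.r = O.r ∧ mapM (g : P.carrier →+* A) P.r = r := by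
  haveI := hA.finite
  haveI := O.level.finite
  let εO := augment O.level.resAlg
  let εA := augment hA.resAlg
  let E : Subalgebra 𝒪 (O.carrier × A) :=
    AlgHom.equalizer (εO.comp (AlgHom.fst 𝒪 O.carrier A)) (εA.comp (AlgHom.snd 𝒪 O.carrier A))
  let pA : E →ₐ[𝒪] O.carrier := (AlgHom.fst 𝒪 O.carrier A).comp E.val
  let pB : E →ₐ[𝒪] A := (AlgHom.snd 𝒪 O.carrier A).comp E.val
  have hnil : ∀ x : E, (εO.comp pA) x = 0 → IsNilpotent x := fun x hx => by
    have h1 : x.1.1 ∈ maximalIdeal O.carrier := (augment_eq_zero_iff O.level.resAlg _).mp hx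
    have h2 : x.1.2 ∈ maximalIdeal A := (augment_eq_zero_iff hA.resAlg _).mp (by
      have : εO x.1.1 = εA x.1.2 := x.2
      exact this ▸ hx)
    exact ⟨n + 1, Subtype.ext (Prod.ext (O.level.pow_eq_zero h1) (hA.pow_eq_zero h2))⟩
  haveI := isLocalRing_of_augmentation _ hnil
  have hinj : Function.Injective fun x : E => (pA x, pB x) := fun x y hxy =>
    Subtype.ext (Prod.ext (congr_arg Prod.fst hxy) (congr_arg Prod.snd hxy))
  have hE : IsLevel 𝒪 n E := isLevel_of_jointly_injective O.level hA pA pB hinj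
  let rp : Gal →* M2 (O.carrier × A) :=
    { toFun := fun σ => Matrix.of fun i j => (O.r σ i j, r σ i j)
      map_one' := by
        refine Matrix.ext fun i j => ?_
        by_cases hij : i = j
        · subst hij; simp
        · simp [hij]
      map_mul' := fun σ τ => by
        ext i j <;> simp [Matrix.mul_apply, Fin.sum_univ_two] }
  have hmem : ∀ σ i j, rp σ i j ∈ E := fun σ i j =>
    (O.good.lifts σ i j).trans (hr.lifts σ i j).symm
  let rE := corestrict E rp hmem
  have hpA : mapM (pA : E →+* O.carrier) rE = O.r := by ext σ i j; rfl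
  have hpB : mapM (pB : E →+* A) rE = r := by ext σ i j; rfl
  have hlA := hE.isLocalHom_algHom pA
  have hlB := hE.isLocalHom_algHom pB
  have hcont : IsCont rE := by
    obtain ⟨L, hL, h1⟩ := O.good.cont.finiteLevel O.level.pow_eq_bot
    obtain ⟨L', hL', h2⟩ := hr.cont.finiteLevel hA.pow_eq_bot
    haveI := hL
    haveI := hL'
    refine isCont_of_finiteLevel ⟨L ⊔ L', inferInstance, fun σ hσ => ?_⟩
    refine Matrix.ext fun i j => ?_
    refine hinj (Prod.ext ?_ ?_)
    · show O.r σ i j = pA ((1 : M2 E) i j)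
      rw [h1 σ fun x hx => hσ x (le_sup_left (a := L) hx)]
      by_cases hij : i = j
      · subst hij; rw [Matrix.one_apply_eq, Matrix.one_apply_eq, map_one]
      · rw [Matrix.one_apply_ne hij, Matrix.one_apply_ne hij, map_zero]
    · show r σ i j = pB ((1 : M2 E) i j)
      rw [h2 σ fun x hx => hσ x (le_sup_right (a := L) hx)]
      by_cases hij : i = j
      · subst hij; rw [Matrix.one_apply_eq, Matrix.one_apply_eq, map_one]
      · rw [Matrix.one_apply_ne hij, Matrix.one_apply_ne hij, map_zero]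
  have hgood : Good W 𝒟 hE.resAlg rE := by
    refine ⟨hcont, Lifts.of_map pA hlA (hpA.symm ▸ O.good.lifts), ?_, ?_⟩
    · obtain ⟨a1, a2, a3⟩ := O.good.normal
      obtain ⟨b1, b2, b3⟩ := hr.normal
      rw [← hpA, evalC_map] at a1 a2 a3
      rw [← hpB, evalC_map] at b1 b2 b3
      exact ⟨hinj (Prod.ext (a1.trans (map_zero pA).symm) (b1.trans (map_zero pB).symm)),
        hinj (Prod.ext (a2.trans (map_zero pA).symm) (b2.trans (map_zero pB).symm)),
        hinj (Prod.ext (a3.trans (map_one pA).symm) (b3.trans (map_one pB).symm))⟩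
    · refine h𝒟.of_fibreProduct O.level.test hA.test (isLevel_residueField n).test hE.test
        εO εA pA pB hlA hlB (AlgHom.ext fun x => x.2) hinj
        (fun a b hab => ⟨⟨(a, b), hab⟩, rfl, rfl⟩) ?_ ?_
      · exact h𝒟.of_isEquiv O.level.test
          (isEquiv_symm (isEquiv_trans (isEquiv_baseChangeAlong_toRep _ hlA rE hcont)
            (isEquiv_toRep_congr hpA _ O.good.cont))) O.good.cond
      · exact h𝒟.of_isEquiv hA.test
          (isEquiv_symm (isEquiv_trans (isEquiv_baseChangeAlong_toRep _ hlB rE hcont)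
            (isEquiv_toRep_congr hpB _ hr.cont))) hr.cond
  obtain ⟨P, φ, -, hφ⟩ := exists_obj h𝒟 hE hgood
  refine ⟨P, pA.comp φ, pB.comp φ, ?_, ?_⟩
  · rw [← hpA, ← hφ, mapM_mapM]; rfl
  · rw [← hpB, ← hφ, mapM_mapM]; rfl

theorem exists_universal_level [Finite (ResidueField 𝒪)]
    (h𝒟 : GaloisRep.IsDeformationCondition 𝒪 𝒟) (hne : Nonempty (Obj W 𝒟 n)) (bound : ℕ)
    (hbound : ∀ O : Obj W 𝒟 n, Nat.card O.carrier ≤ bound) :
    ∃ R : Obj W 𝒟 n, ∀ (A : Type) [CommRing A] [IsLocalRing A] [Algebra 𝒪 A]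
      (hA : IsLevel 𝒪 n A) (r : Gal →* M2 A), Good W 𝒟 hA.resAlg r →
        ∃ φ : R.carrier →ₐ[𝒪] A, mapM (φ : R.carrier →+* A) R.r = r := by
  let S : Set ℕ := Set.range fun O : Obj W 𝒟 n => Nat.card O.carrier
  have hS : BddAbove S := ⟨bound, by rintro _ ⟨O, rfl⟩; exact hbound O⟩
  have hSne : S.Nonempty := ⟨_, ⟨hne.some, rfl⟩⟩
  obtain ⟨R, hR⟩ := Nat.sSup_mem hSne hS
  refine ⟨R, fun A _ _ _ hA r hr => ?_⟩
  obtain ⟨P, f, g, hf, hg⟩ := exists_pair h𝒟 R hA hr
  haveI := P.level.finite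
  haveI := R.level.finite
  have hcard : Nat.card P.carrier ≤ Nat.card R.carrier := by
    show Nat.card P.carrier ≤ (fun O : Obj W 𝒟 n => Nat.card O.carrier) R
    rw [hR]
    exact le_csSup hS ⟨P, rfl⟩
  have hsurj := surjective_of_entries R.gen f hf
  have hbij : Function.Bijective f :=
    (Nat.bijective_iff_surjective_and_card f).mpr
      ⟨hsurj, le_antisymm hcard (Nat.card_le_card_of_surjective f hsurj)⟩
  let e := AlgEquiv.ofBijective f hbij
  refine ⟨g.comp e.symm.toAlgHom, ?_⟩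
  rw [← hg]
  ext σ i j
  show g (e.symm (R.r σ i j)) = g (P.r σ i j)
  rw [← congr_fun (congr_fun (DFunLike.congr_fun hf σ) i) j]
  exact congr_arg g (e.symm_apply_apply _)

/-- The quotient by a power of the maximal ideal is a coefficient algebra of finite level. -/
theorem isLevel_quotient [Finite (ResidueField 𝒪)] [IsNoetherianRing A] (hA : IsResAlg 𝒪 A)
    (n : ℕ) [IsLocalRing (A ⧸ maximalIdeal A ^ (n + 1))] :
    IsLevel 𝒪 n (A ⧸ maximalIdeal A ^ (n + 1)) := by
  haveI : Finite (A ⧸ maximalIdeal A) :=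
    haveI := hA.isLocalHom
    Finite.of_surjective _ hA.map_bijective.2
  haveI := IsLocalHom.of_surjective (Ideal.Quotient.mk (maximalIdeal A ^ (n + 1)))
    Ideal.Quotient.mk_surjective
  have hmax : maximalIdeal (A ⧸ maximalIdeal A ^ (n + 1)) =
      (maximalIdeal A).map (Ideal.Quotient.mk (maximalIdeal A ^ (n + 1))) := by
    refine le_antisymm (fun z hz => ?_) (Ideal.map_le_iff_le_comap.mpr fun a ha =>
      map_nonunit (Ideal.Quotient.mk (maximalIdeal A ^ (n + 1))) a ha)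
    obtain ⟨a, rfl⟩ := Ideal.Quotient.mk_surjective z
    exact Ideal.mem_map_of_mem _ fun hu => hz (hu.map _)
  refine ⟨Ideal.finite_quotient_pow (IsNoetherian.noetherian _) _, ⟨?_, ?_⟩, ?_⟩
  · haveI := hA.isLocalHom
    rw [IsScalarTower.algebraMap_eq 𝒪 A, Ideal.Quotient.algebraMap_eq]
    infer_instance
  · intro z
    obtain ⟨y, rfl⟩ := residue_surjective z
    obtain ⟨a, rfl⟩ := Ideal.Quotient.mk_surjective y
    obtain ⟨o, ho⟩ := exists_sub_mem hA a
    refine ⟨o, ?_⟩
    show residue _ (algebraMap 𝒪 (A ⧸ maximalIdeal A ^ (n + 1)) o) = _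
    rw [eq_comm, ← sub_eq_zero, ← map_sub, residue_eq_zero_iff, hmax]
    rw [IsScalarTower.algebraMap_apply 𝒪 A, Ideal.Quotient.algebraMap_eq, ← map_sub]
    exact Ideal.mem_map_of_mem _ ho
  · rw [hmax, ← Ideal.map_pow, Ideal.map_quotient_self]

theorem isLocalRing_quotient_pow {R : Type} [CommRing R] [IsLocalRing R] (n : ℕ) :
    IsLocalRing (R ⧸ maximalIdeal R ^ (n + 1)) := by
  haveI : Nontrivial (R ⧸ maximalIdeal R ^ (n + 1)) :=
    Ideal.Quotient.nontrivial_iff.mpr fun h => by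
      have := (Ideal.pow_le_self (I := maximalIdeal R) (Nat.succ_ne_zero n))
      rw [h, top_le_iff] at this
      exact Ideal.IsMaximal.ne_top inferInstance this
  exact IsLocalRing.of_surjective' _ Ideal.Quotient.mk_surjective

end Fermat.Agent.Deform
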