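import Fermat.Agent.Deform.Basic

/-!
# Inverse limits of towers of Artinian coefficient algebras

The limit is a complete Noetherian local algebra with the residue field of `𝒪`.
-/

set_option autoImplicit false
set_option linter.style.haveILetI false

noncomputable section

namespace Fermat.Agent.Deform

open IsLocalRing Module

theorem exists_compat_sequence (n : ℕ) : ∀ (A : ℕ → Type) (f : ∀ n, A (n + 1) → A n),
    (∀ n, Function.Surjective (f n)) → ∀ z : A n,
      ∃ x : ∀ n, A n, (∀ m, f m (x (m + 1)) = x m) ∧ x n = z := by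
  induction n with
  | zero =>
    intro A f hf z
    refine ⟨fun n => Nat.rec (motive := A) z (fun m x => (hf m x).choose) n, fun m => ?_, rfl⟩
    exact (hf m _).choose_spec
  | succ n ih =>
    intro A f hf z
    obtain ⟨x, hx, hxn⟩ :=
      ih (fun m => A (m + 1)) (fun m => f (m + 1)) (fun m => hf (m + 1)) z
    let y : ∀ m, A m := fun m => Nat.casesOn (motive := A) m (f 0 (x 0)) fun m => x m
    refine ⟨y, fun m => ?_, hxn⟩
    cases m with
    | zero => rfl
    | succ m => exact hx m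

/-- A tower of finite coefficient algebras, the `n`-th having length at most `n + 1`. -/
structure Tower (𝒪 : Type) [CommRing 𝒪] [IsLocalRing 𝒪] where
  /-- The levels. -/
  obj : ℕ → Type
  [commRing : ∀ n, CommRing (obj n)]
  [isLocalRing : ∀ n, IsLocalRing (obj n)]
  [algebra : ∀ n, Algebra 𝒪 (obj n)]
  [finite : ∀ n, Finite (obj n)]
  /-- The transition maps. -/
  tr : ∀ n, obj (n + 1) →ₐ[𝒪] obj n
  tr_surjective : ∀ n, Function.Surjective (tr n)
  resAlg : ∀ n, IsResAlg 𝒪 (obj n)
  pow_eq_bot : ∀ n, maximalIdeal (obj n) ^ (n + 1) = ⊥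
  ker_tr : ∀ n x, tr n x = 0 → x ∈ maximalIdeal (obj (n + 1)) ^ (n + 1)

attribute [instance] Tower.commRing Tower.isLocalRing Tower.algebra Tower.finite

variable {𝒪 : Type} [CommRing 𝒪] [IsLocalRing 𝒪] (T : Tower 𝒪)

/-- The inverse limit of a tower. -/
def Tower.lim : Subalgebra 𝒪 (∀ n, T.obj n) where
  carrier := {x | ∀ n, T.tr n (x (n + 1)) = x n}
  mul_mem' hx hy n := by simp [map_mul, hx n, hy n]
  one_mem' n := by simp
  add_mem' hx hy n := by simp [map_add, hx n, hy n]
  zero_mem' n := by simp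
  algebraMap_mem' o n := by simp

/-- The projections of the inverse limit. -/
def Tower.proj (n : ℕ) : T.lim →ₐ[𝒪] T.obj n :=
  (Pi.evalAlgHom 𝒪 T.obj n).comp T.lim.val

variable {T}

theorem Tower.proj_mk (n : ℕ) (x : T.lim) : T.proj n x = x.1 n := rfl

@[simp]
theorem Tower.tr_proj (n : ℕ) (x : T.lim) : T.tr n (T.proj (n + 1) x) = T.proj n x := x.2 n

theorem Tower.ext_proj {x y : T.lim} (h : ∀ n, T.proj n x = T.proj n y) : x = y :=
  Subtype.ext (funext h)

theorem Tower.proj_surjective (n : ℕ) : Function.Surjective (T.proj n) := fun z => by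
  obtain ⟨x, hx, hxn⟩ :=
    exists_compat_sequence n T.obj (fun m => ⇑(T.tr m)) T.tr_surjective z
  exact ⟨⟨x, hx⟩, hxn⟩

theorem Tower.proj_eq_zero_of_le {i N : ℕ} (h : i ≤ N) {x : T.lim} (hx : T.proj N x = 0) :
    T.proj i x = 0 := by
  induction N, h using Nat.le_induction with
  | base => exact hx
  | succ N _ ih => exact ih (by rw [← Tower.tr_proj, hx, map_zero])

theorem Tower.isUnit_of_isUnit_proj_zero {x : T.lim} (h : IsUnit (T.proj 0 x)) : IsUnit x := by
  have hu : ∀ n, IsUnit (T.proj n x) := by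
    intro n
    induction n with
    | zero => exact h
    | succ n ih =>
      rw [← Tower.tr_proj] at ih
      haveI := IsLocalHom.of_surjective (T.tr n : T.obj (n + 1) →+* T.obj n) (T.tr_surjective n)
      exact IsUnit.of_map (T.tr n : T.obj (n + 1) →+* T.obj n) _ ih
  let y : ∀ n, T.obj n := fun n => ((hu n).unit⁻¹ : (T.obj n)ˣ)
  have hy : y ∈ T.lim := fun n => by
    refine (hu n).mul_left_cancel ?_
    conv_lhs => rw [← Tower.tr_proj, ← map_mul]
    rw [IsUnit.mul_val_inv (hu n)]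
    show T.tr n (T.proj (n + 1) x * y (n + 1)) = 1
    rw [IsUnit.mul_val_inv (hu (n + 1)), map_one]
  exact IsUnit.of_mul_eq_one ⟨y, hy⟩ (Tower.ext_proj fun n => by
    rw [map_mul, map_one]; exact IsUnit.mul_val_inv (hu n))

instance : IsLocalRing T.lim := by
  haveI : Nontrivial T.lim := (T.proj 0).toRingHom.domain_nontrivial
  refine IsLocalRing.of_nonunits_add fun a b ha hb => ?_
  intro hab
  have := (hab.map (T.proj 0))
  rw [map_add] at this
  have h : IsUnit (T.proj 0 a) ∨ IsUnit (T.proj 0 b) := IsLocalRing.isUnit_or_isUnit_of_isUnit_add this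
  rcases h with h | h
  · exact ha (Tower.isUnit_of_isUnit_proj_zero h)
  · exact hb (Tower.isUnit_of_isUnit_proj_zero h)

theorem Tower.isLocalHom_proj (n : ℕ) : IsLocalHom (T.proj n : T.lim →+* T.obj n) :=
  IsLocalHom.of_surjective _ (T.proj_surjective n)

theorem Tower.mem_maximalIdeal_iff (x : T.lim) :
    x ∈ maximalIdeal T.lim ↔ T.proj 0 x = 0 := by
  have h0 : maximalIdeal (T.obj 0) = ⊥ := by simpa using T.pow_eq_bot 0
  haveI := T.isLocalHom_proj 0
  constructor
  · intro hx
    have h1 : T.proj 0 x ∈ maximalIdeal (T.obj 0) :=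
      map_nonunit (T.proj 0 : T.lim →+* T.obj 0) x hx
    rwa [h0, Ideal.mem_bot] at h1
  · intro hx hu
    exact not_isUnit_zero (hx ▸ hu.map (T.proj 0))

theorem Tower.map_maximalIdeal (n : ℕ) :
    (maximalIdeal T.lim).map (T.proj n : T.lim →+* T.obj n) = maximalIdeal (T.obj n) := by
  haveI := T.isLocalHom_proj n
  refine le_antisymm (Ideal.map_le_iff_le_comap.mpr fun a ha => map_nonunit _ a ha) fun z hz => ?_
  obtain ⟨x, rfl⟩ := T.proj_surjective n z
  exact Ideal.mem_map_of_mem _ fun hu => hz (hu.map (T.proj n))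

theorem Tower.isResAlg_lim : IsResAlg 𝒪 T.lim := by
  refine ⟨⟨fun o ho => ?_⟩, fun z => ?_⟩
  · haveI := (T.resAlg 0).isLocalHom
    have := ho.map (T.proj 0)
    rw [AlgHom.commutes] at this
    exact IsUnit.of_map (algebraMap 𝒪 (T.obj 0)) o this
  · obtain ⟨x, rfl⟩ := residue_surjective z
    obtain ⟨o, ho⟩ := exists_sub_mem (T.resAlg 0) (T.proj 0 x)
    refine ⟨o, ?_⟩
    show residue T.lim (algebraMap 𝒪 T.lim o) = residue T.lim x
    rw [eq_comm, ← sub_eq_zero, ← map_sub, residue_eq_zero_iff, Tower.mem_maximalIdeal_iff]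
    have h0 : maximalIdeal (T.obj 0) = ⊥ := by simpa using T.pow_eq_bot 0
    rw [h0, Ideal.mem_bot] at ho
    rw [map_sub, AlgHom.commutes, ho]

theorem Tower.ker_proj_le {n : ℕ} {K : Ideal T.lim} (hfg : K.FG)
    (hK : ∀ N, K.map (T.proj N : T.lim →+* T.obj N) = maximalIdeal (T.obj N) ^ (n + 1))
    {z : T.lim} (hz : T.proj n z = 0) : z ∈ K := by
  classical
  obtain ⟨t, g, hg⟩ := Submodule.fg_iff_exists_fin_generating_family.mp hfg
  let P : ℕ → (Fin t → T.lim) → Prop := fun j c => T.proj (n + j) (z - ∑ i, c i * g i) = 0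
  have step : ∀ j c, P j c →
      ∃ c', P (j + 1) c' ∧ ∀ i, c' i - c i ∈ maximalIdeal T.lim ^ j := by
    intro j c hc
    let e := z - ∑ i, c i * g i
    have he : T.proj (n + j + 1) e ∈ maximalIdeal (T.obj (n + j + 1)) ^ (n + j + 1) :=
      T.ker_tr (n + j) _ (by rw [Tower.tr_proj]; exact hc)
    have heq : maximalIdeal (T.obj (n + j + 1)) ^ (n + j + 1) =
        (maximalIdeal T.lim ^ j * K).map (T.proj (n + j + 1) : T.lim →+* T.obj (n + j + 1)) := by
      rw [Ideal.map_mul, Ideal.map_pow, T.map_maximalIdeal, hK, ← pow_add]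
      congr 1
      omega
    rw [heq] at he
    obtain ⟨E, hE, hEe⟩ := (Ideal.mem_map_iff_of_surjective _ (T.proj_surjective _)).mp he
    have hE' : E ∈ (maximalIdeal T.lim ^ j) • Submodule.span T.lim (Set.range g) := by
      rw [hg]; exact hE
    obtain ⟨a, ha, hsum⟩ := (Submodule.mem_ideal_smul_span_iff_exists_sum _ g E).mp hE'
    refine ⟨fun i => c i + a i, ?_, fun i => by rw [add_sub_cancel_left]; exact ha i⟩
    show T.proj (n + (j + 1)) (z - ∑ i, (c i + a i) * g i) = 0
    have hE2 : ∑ i, a i * g i = E := by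
      rw [← hsum, Finsupp.sum_fintype]
      · rfl
      · intro i; exact zero_smul _ _
    have : z - ∑ i, (c i + a i) * g i = e - E := by
      rw [← hE2]
      simp [e, add_mul, Finset.sum_add_distrib]
      ring
    rw [this, map_sub, sub_eq_zero]
    exact hEe.symm
  have h0 : P 0 0 := by simpa [P] using hz
  let c : ∀ j, {c // P j c} := fun j => Nat.rec (motive := fun j => {c // P j c}) ⟨0, h0⟩
    (fun j c => ⟨(step j c.1 c.2).choose, (step j c.1 c.2).choose_spec.1⟩) j
  have hstep : ∀ j i, (c (j + 1)).1 i - (c j).1 i ∈ maximalIdeal T.lim ^ j :=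
    fun j i => (step j (c j).1 (c j).2).choose_spec.2 i
  have hlim : ∀ i, (fun l => T.proj l ((c (l + 1)).1 i)) ∈ T.lim := by
    intro i l
    show T.tr l (T.proj (l + 1) ((c (l + 1 + 1)).1 i)) = T.proj l ((c (l + 1)).1 i)
    rw [Tower.tr_proj, ← sub_eq_zero, ← map_sub]
    haveI := T.isLocalHom_proj l
    have h1 := Ideal.mem_map_of_mem (T.proj l : T.lim →+* T.obj l) (hstep (l + 1) i)
    rw [Ideal.map_pow, T.map_maximalIdeal, T.pow_eq_bot, Ideal.mem_bot] at h1
    exact h1
  let d : Fin t → T.lim := fun i => ⟨_, hlim i⟩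
  have hzd : z = ∑ i, d i * g i := by
    refine Tower.ext_proj fun l => ?_
    have h1 := Tower.proj_eq_zero_of_le (T := T) (i := l) (by omega) (c (l + 1)).2
    rw [map_sub, sub_eq_zero] at h1
    rw [h1, map_sum, map_sum]
    refine Finset.sum_congr rfl fun i _ => ?_
    rw [map_mul, map_mul]
    rfl
  rw [hzd, ← hg]
  exact Submodule.sum_mem _ fun i _ =>
    Submodule.smul_mem _ _ (Submodule.subset_span ⟨i, rfl⟩)

theorem Tower.exists_fg_maximalIdeal : ∃ K : Ideal T.lim, K.FG ∧ K ≤ maximalIdeal T.lim ∧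
    ∀ N, K.map (T.proj N : T.lim →+* T.obj N) = maximalIdeal (T.obj N) := by
  classical
  choose s hs using T.proj_surjective 1
  let S : Set T.lim := s '' (maximalIdeal (T.obj 1) : Set (T.obj 1))
  have hSfin : S.Finite := (Set.toFinite _).image s
  have hle : Ideal.span S ≤ maximalIdeal T.lim := by
    rw [Ideal.span_le]
    rintro _ ⟨a, ha, rfl⟩ hu
    have := hu.map (T.proj 1)
    rw [hs] at this
    exact ha this
  refine ⟨Ideal.span S, ⟨hSfin.toFinset, by simp⟩, hle, fun N => ?_⟩
  refine le_antisymm ((Ideal.map_mono hle).trans (T.map_maximalIdeal N).le) ?_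
  rcases Nat.eq_zero_or_pos N with rfl | hN
  · have h0 : maximalIdeal (T.obj 0) = ⊥ := by simpa using T.pow_eq_bot 0
    rw [h0]; exact bot_le
  induction N, hN using Nat.le_induction with
  | base =>
    intro a ha
    exact hs a ▸ Ideal.mem_map_of_mem _ (Ideal.subset_span ⟨a, ha, rfl⟩)
  | succ N hN ih =>
    set I := (Ideal.span S).map (T.proj (N + 1) : T.lim →+* T.obj (N + 1))
    set m := maximalIdeal (T.obj (N + 1))
    have hIN : I.map (T.tr N : T.obj (N + 1) →+* T.obj N) =
        (Ideal.span S).map (T.proj N : T.lim →+* T.obj N) := by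
      rw [Ideal.map_map]
      congr 1
      ext x
      exact Tower.tr_proj N x
    have h1 : m ≤ I ⊔ m • m := by
      intro a ha
      have h2 : T.tr N a ∈ maximalIdeal (T.obj N) := by
        haveI := IsLocalHom.of_surjective (T.tr N : T.obj (N + 1) →+* T.obj N) (T.tr_surjective N)
        exact map_nonunit (T.tr N : T.obj (N + 1) →+* T.obj N) a ha
      have h3 : T.tr N a ∈ I.map (T.tr N : T.obj (N + 1) →+* T.obj N) := hIN ▸ ih h2
      obtain ⟨b, hb, hba⟩ := (Ideal.mem_map_iff_of_surjective _ (T.tr_surjective N)).mp h3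
      have h4 : a - b ∈ m • m := by
        have := T.ker_tr N (a - b) (by rw [map_sub, sub_eq_zero]; exact hba.symm)
        rw [smul_eq_mul, ← pow_two]
        exact Ideal.pow_le_pow_right (by omega) this
      have := Submodule.add_mem_sup hb h4
      rwa [add_sub_cancel] at this
    exact Submodule.le_of_le_smul_of_le_jacobson_bot (IsNoetherian.noetherian m)
      (maximalIdeal_le_jacobson ⊥) h1

theorem Tower.maximalIdeal_fg : (maximalIdeal T.lim).FG := by
  obtain ⟨K, hfg, hle, hmap⟩ := T.exists_fg_maximalIdeal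
  have : maximalIdeal T.lim = K := le_antisymm (fun z hz => by
    refine Tower.ker_proj_le (n := 0) hfg (fun N => ?_) ((T.mem_maximalIdeal_iff z).mp hz)
    rw [hmap, zero_add, pow_one]) hle
  rw [this]; exact hfg

theorem Tower.mem_pow_iff (n : ℕ) (z : T.lim) :
    z ∈ maximalIdeal T.lim ^ (n + 1) ↔ T.proj n z = 0 := by
  constructor
  · intro hz
    have h1 := Ideal.mem_map_of_mem (T.proj n : T.lim →+* T.obj n) hz
    rwa [Ideal.map_pow, T.map_maximalIdeal, T.pow_eq_bot, Ideal.mem_bot] at h1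
  · intro hz
    exact Tower.ker_proj_le (T.maximalIdeal_fg.pow)
      (fun N => by rw [Ideal.map_pow, T.map_maximalIdeal]) hz

instance : IsAdicComplete (maximalIdeal T.lim) T.lim where
  haus' x hx := by
    refine Tower.ext_proj fun n => ?_
    have := hx (n + 1)
    rw [SModEq.zero, smul_eq_mul, Ideal.mul_top, Tower.mem_pow_iff] at this
    rw [this, map_zero]
  prec' f hf := by
    have hf' : ∀ {m n}, m ≤ n → f m - f n ∈ maximalIdeal T.lim ^ m := by
      intro m n hmn
      have := hf hmn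
      rwa [SModEq.sub_mem, smul_eq_mul, Ideal.mul_top] at this
    have hy : (fun l => T.proj l (f (l + 1))) ∈ T.lim := fun l => by
      show T.tr l (T.proj (l + 1) (f (l + 1 + 1))) = T.proj l (f (l + 1))
      rw [Tower.tr_proj, eq_comm, ← sub_eq_zero, ← map_sub, ← Tower.mem_pow_iff]
      exact hf' (Nat.le_succ _)
    refine ⟨⟨_, hy⟩, fun n => ?_⟩
    rw [SModEq.sub_mem, smul_eq_mul, Ideal.mul_top]
    cases n with
    | zero => rw [pow_zero, Ideal.one_eq_top]; exact Submodule.mem_top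
    | succ n =>
      rw [Tower.mem_pow_iff, map_sub, sub_eq_zero]
      rfl

theorem isNoetherianRing_of_complete {R : Type} [CommRing R] [IsLocalRing R] [Algebra 𝒪 R]
    [IsNoetherianRing 𝒪] [IsAdicComplete (maximalIdeal R) R] (hfg : (maximalIdeal R).FG)
    (hR : IsResAlg 𝒪 R) : IsNoetherianRing R := by
  classical
  obtain ⟨t, g, hg⟩ := Submodule.fg_iff_exists_fin_generating_family.mp hfg
  have hgm : ∀ i, g i ∈ maximalIdeal R := fun i => hg ▸ Submodule.subset_span ⟨i, rfl⟩
  let M := maximalIdeal R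
  let I₀ := MvPolynomial.idealOfVars (Fin t) 𝒪
  have hI₀ : ∀ n, I₀ ^ n ≤ (M ^ n).comap (MvPolynomial.aeval g : MvPolynomial (Fin t) 𝒪 →ₐ[𝒪] R) := by
    intro n
    refine le_trans (Ideal.pow_right_mono ?_ n) (Ideal.le_comap_pow _ n)
    show Ideal.span (Set.range MvPolynomial.X) ≤ _
    rw [Ideal.span_le]
    rintro _ ⟨i, rfl⟩
    show MvPolynomial.aeval g (MvPolynomial.X i) ∈ M
    rw [MvPolynomial.aeval_X]
    exact hgm i
  let f : ∀ n, MvPowerSeries (Fin t) 𝒪 →ₐ[𝒪] R ⧸ M ^ n := fun n =>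
    (Ideal.Quotient.liftₐ (I₀ ^ n) ((Ideal.Quotient.mkₐ 𝒪 (M ^ n)).comp (MvPolynomial.aeval g))
      (fun p hp => Ideal.Quotient.eq_zero_iff_mem.mpr (hI₀ n hp))).comp
        ((MvPowerSeries.truncTotalAlgHom (Fin t) 𝒪 n).restrictScalars 𝒪)
  have hfn : ∀ n p, f n p =
      Ideal.Quotient.mk (M ^ n) (MvPolynomial.aeval g (MvPowerSeries.truncTotal n p)) := fun n p => rfl
  have hf : ∀ {m n : ℕ} (hle : m ≤ n),
      (Ideal.Quotient.factorₐ 𝒪 (Ideal.pow_le_pow_right hle)).comp (f n) = f m := by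
    intro m n hle
    refine AlgHom.ext fun p => ?_
    show Ideal.Quotient.factor (Ideal.pow_le_pow_right hle) (f n p) = f m p
    rw [hfn, hfn, Ideal.Quotient.factor_mk, Ideal.Quotient.mk_eq_mk_iff_sub_mem, ← map_sub]
    exact hI₀ m (MvPowerSeries.truncTotal_sub_truncTotal_mem_pow_idealOfVars hle (le_refl _) _)
  let F := IsAdicComplete.liftAlgHom (R := 𝒪) M f hf
  have hFn : ∀ n p, Ideal.Quotient.mk (M ^ n) (F p) = f n p :=
    fun n p => IsAdicComplete.mk_liftAlgHom M f hf n p
  let I : Ideal (MvPowerSeries (Fin t) 𝒪) := Ideal.span (Set.range MvPowerSeries.X)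
  have hFX : ∀ i, F (MvPowerSeries.X i) = g i := by
    intro i
    refine (IsHausdorff.eq_iff_smodEq (I := M)).mpr fun n => ?_
    rw [SModEq.sub_mem, smul_eq_mul, Ideal.mul_top, ← Ideal.Quotient.eq, hFn, hfn,
      Ideal.Quotient.mk_eq_mk_iff_sub_mem]
    have h1 : MvPowerSeries.truncTotal n (MvPowerSeries.X i : MvPowerSeries (Fin t) 𝒪) -
        MvPolynomial.X i ∈ I₀ ^ n := by
      rw [MvPolynomial.mem_pow_idealOfVars_iff']
      intro x hx
      rw [MvPolynomial.coeff_sub, MvPowerSeries.coeff_truncTotal _ hx, ← MvPolynomial.coe_X,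
        MvPolynomial.coeff_coe, sub_self]
    have h2 := hI₀ n h1
    rw [Ideal.mem_comap, map_sub, MvPolynomial.aeval_X] at h2
    exact h2
  have hmap : I.map (F : MvPowerSeries (Fin t) 𝒪 →+* R) = M := by
    rw [Ideal.map_span, ← Set.range_comp]
    show Ideal.span _ = maximalIdeal R
    rw [← hg]
    congr 1
    ext x
    simp [hFX]
  haveI : IsHausdorff (I.map (F : MvPowerSeries (Fin t) 𝒪 →+* R)) R := by
    rw [hmap]; infer_instance
  refine isNoetherianRing_of_surjective _ R (F : MvPowerSeries (Fin t) 𝒪 →+* R)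
    (surjective_of_mk_map_comp_surjective (F : MvPowerSeries (Fin t) 𝒪 →+* R) (I := I) ?_)
  intro y
  obtain ⟨x, rfl⟩ := Ideal.Quotient.mk_surjective y
  obtain ⟨o, ho⟩ := exists_sub_mem hR x
  refine ⟨algebraMap 𝒪 _ o, ?_⟩
  rw [RingHom.comp_apply, RingHom.coe_coe, AlgHom.commutes, eq_comm, Ideal.Quotient.eq, hmap]
  exact ho

theorem Tower.isNoetherianRing_lim [IsNoetherianRing 𝒪] : IsNoetherianRing T.lim :=
  isNoetherianRing_of_complete T.maximalIdeal_fg T.isResAlg_lim

end Fermat.Agent.Deform
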